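import Fermat.Agent.S37.H277.GalMain
import Fermat.Agent.Lib.RR.H804.Modular

/-!
# S37 / piece [GAL] — `geoRed_inertia` (helper277)

Exact statement of `Skeleton2.geoRed_inertia` (origin/helper37, `coord/S37.md`): the geometric
place reduction `G.r` is invariant under the inertia group at `A`.

Inputs: `GalMain.geoRed_inertia_of_deg` (pure algebra from `vc_*`, `sep_*`) and
`Lib.RR.H804.deg_eq_one_modular` (all places of `ℚ̄(X₀(N))` have degree one; landed, from S24).
-/

set_option autoImplicit false
set_option synthInstance.maxHeartbeats 400000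

noncomputable section

namespace Fermat.Agent.S37.H277

open ModularCurve ValuationSubring AlgebraicCurve HahnSeries Fermat.Agent.S37.Core

/-- PIECE [GAL] of the S37 row plan. -/
theorem geoRed_inertia (N : ℕ) [NeZero N] (ℓ : ℕ) (hℓ : ℓ.Prime)
    (A : ValuationSubring (AlgebraicClosure ℚ)) (hA : A.LiesOverPrime ℓ) (G : GeoRed A N)
    (τ : AlgebraicClosure ℚ ≃ₐ[ℚ] AlgebraicClosure ℚ) (hτ : τ ∈ A.inertiaSubgroupIn ℚ)
    (P : Place (AlgebraicClosure ℚ) (modularFunctionFieldBar N)) :
    G.r (arithmeticGalois (modularFunctionFieldFull N) τ • P) = G.r P :=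
  geoRed_inertia_of_deg G (Fermat.Agent.Lib.RR.H804.deg_eq_one_modular N) τ hτ P

end Fermat.Agent.S37.H277
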