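import Fermat.Agent.S37.Core.Geo

/-!
# S37 / [GAL] — generic lemmas on values of functions at places (helper277)

`HasValue P f b` (from `Core/Geo.lean`) means `f - b ∈ 𝔪_P`.  This file collects the generic
facts needed for piece [GAL] (`geoRed_inertia`):

* `hasValue_mem`, `hasValue_unique`, `exists_hasValue` (places of degree one),
* `hasValue_smul` : transport along a semilinear automorphism,
* `hasValue_inv`, `hasValue_inv_zero_of_not_mem` : the chart at infinity,
* `hasValue_iff_residue` : reformulation through the residue field.
-/

set_option autoImplicit false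

noncomputable section

namespace Fermat.Agent.S37.H277

open ModularCurve ValuationSubring AlgebraicCurve HahnSeries Fermat.Agent.S37.Core
open scoped Pointwise

section Generic

variable {K F : Type*} [Field K] [Field F] [Algebra K F]

theorem hasValue_mem {P : Place K F} {f : F} {b : K} (h : HasValue P f b) :
    f ∈ P.toValuationSubring := by
  have h1 : f - algebraMap K F b ∈ P.toValuationSubring :=
    ValuationSubring.nonunits_subset h
  have h2 := P.algebraMap_mem' b
  have h3 := add_mem h1 h2
  rwa [sub_add_cancel] at h3

theorem algebraMap_mem_nonunits_iff (P : Place K F) (b : K) :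
    algebraMap K F b ∈ P.toValuationSubring.nonunits ↔ b = 0 := by
  constructor
  · intro h
    by_contra hb
    rw [ValuationSubring.mem_nonunits_iff_or] at h
    rcases h with h | h
    · exact hb ((map_eq_zero (algebraMap K F)).mp h)
    · apply h
      rw [← map_inv₀]
      exact P.algebraMap_mem' _
  · rintro rfl
    rw [map_zero]
    exact zero_mem _

theorem hasValue_unique {P : Place K F} {f : F} {b b' : K} (h : HasValue P f b)
    (h' : HasValue P f b') : b = b' := by
  have h1 : algebraMap K F (b' - b) ∈ P.toValuationSubring.nonunits := by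
    have h2 := sub_mem h h'
    have h3 : f - algebraMap K F b - (f - algebraMap K F b') = algebraMap K F (b' - b) := by
      rw [map_sub]; ring
    rwa [h3] at h2
  have h4 := (algebraMap_mem_nonunits_iff P _).mp h1
  exact (sub_eq_zero.mp h4).symm

theorem hasValue_algebraMap (P : Place K F) (b : K) : HasValue P (algebraMap K F b) b := by
  show algebraMap K F b - algebraMap K F b ∈ P.toValuationSubring.nonunits
  rw [sub_self]
  exact zero_mem _

theorem hasValue_iff_residue (P : Place K F) (f : F) (b : K) :
    HasValue P f b ↔ ∃ hf : f ∈ P.toValuationSubring,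
      IsLocalRing.residue P.toValuationSubring ⟨f, hf⟩ = algebraMap K P.ResidueField b := by
  constructor
  · intro h
    refine ⟨hasValue_mem h, ?_⟩
    rw [IsScalarTower.algebraMap_apply K P.toValuationSubring P.ResidueField,
      IsLocalRing.ResidueField.algebraMap_eq, ← sub_eq_zero, ← map_sub,
      IsLocalRing.residue_eq_zero_iff]
    rw [← ValuationSubring.coe_mem_nonunits_iff]
    exact h
  · rintro ⟨hf, h⟩
    rw [IsScalarTower.algebraMap_apply K P.toValuationSubring P.ResidueField,
      IsLocalRing.ResidueField.algebraMap_eq, ← sub_eq_zero, ← map_sub,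
      IsLocalRing.residue_eq_zero_iff] at h
    rw [← ValuationSubring.coe_mem_nonunits_iff] at h
    exact h

theorem exists_hasValue {P : Place K F} (hdeg : P.deg = 1) {f : F}
    (hf : f ∈ P.toValuationSubring) : ∃ b : K, HasValue P f b := by
  have hbot : (⊥ : Subalgebra K P.ResidueField) = ⊤ :=
    Subalgebra.bot_eq_top_of_finrank_eq_one hdeg
  have hx : IsLocalRing.residue P.toValuationSubring ⟨f, hf⟩ ∈ (⊥ : Subalgebra K P.ResidueField) := by
    rw [hbot]; exact Algebra.mem_top
  obtain ⟨b, hb⟩ := Algebra.mem_bot.mp hx
  exact ⟨b, (hasValue_iff_residue P f b).mpr ⟨hf, hb.symm⟩⟩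

theorem hasValue_add {P : Place K F} {f g : F} {b c : K} (hf : HasValue P f b)
    (hg : HasValue P g c) : HasValue P (f + g) (b + c) := by
  have h := add_mem hf hg
  show f + g - algebraMap K F (b + c) ∈ P.toValuationSubring.nonunits
  have h3 : f + g - algebraMap K F (b + c) = f - algebraMap K F b + (g - algebraMap K F c) := by
    rw [map_add]; ring
  rwa [h3]

/-- multiplying a nonunit by an element of the valuation ring -/
theorem mul_mem_nonunits {O : ValuationSubring F} {x y : F} (hx : x ∈ O.nonunits) (hy : y ∈ O) :
    x * y ∈ O.nonunits := by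
  rw [ValuationSubring.mem_nonunits_iff] at hx ⊢
  rw [map_mul]
  have hy' : O.valuation y ≤ 1 := (O.valuation_le_one_iff y).mpr hy
  calc O.valuation x * O.valuation y ≤ O.valuation x * 1 := by gcongr
    _ = O.valuation x := mul_one _
    _ < 1 := hx

theorem hasValue_inv {P : Place K F} {f : F} {b : K} (hf : HasValue P f b) (hb : b ≠ 0) :
    HasValue P f⁻¹ b⁻¹ := by
  have hfne : f ≠ 0 := by
    rintro rfl
    have h0 := hasValue_algebraMap P (0 : K)
    rw [map_zero] at h0
    exact hb (hasValue_unique hf h0)
  -- `f` is a unit of `O_P`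
  have hfnon : f ∉ P.toValuationSubring.nonunits := by
    intro h
    have h0 : HasValue P f 0 := by
      show f - algebraMap K F 0 ∈ _
      rwa [map_zero, sub_zero]
    exact hb (hasValue_unique hf h0)
  have hfinv : f⁻¹ ∈ P.toValuationSubring := by
    by_contra h
    exact hfnon ((ValuationSubring.mem_nonunits_iff_or _).mpr (Or.inr h))
  have hbne : algebraMap K F b ≠ 0 := fun h => hb ((map_eq_zero _).mp h)
  have key : f⁻¹ - algebraMap K F b⁻¹ =
      (f - algebraMap K F b) * (-(f⁻¹ * algebraMap K F b⁻¹)) := by
    rw [map_inv₀]
    field_simp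
    ring
  show f⁻¹ - algebraMap K F b⁻¹ ∈ P.toValuationSubring.nonunits
  rw [key]
  exact mul_mem_nonunits hf (neg_mem (mul_mem hfinv (P.algebraMap_mem' _)))

theorem hasValue_inv_zero_of_not_mem {P : Place K F} {f : F}
    (hf : f ∉ P.toValuationSubring) : HasValue P f⁻¹ 0 := by
  show f⁻¹ - algebraMap K F 0 ∈ P.toValuationSubring.nonunits
  rw [map_zero, sub_zero, ValuationSubring.inv_mem_nonunits_iff]
  exact Or.inr hf

/-- transport of values along a semilinear automorphism -/
theorem hasValue_smul {P : Place K F} {f : F} {b : K} (g : SemilinearAut K F)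
    (h : HasValue P f b) : HasValue (g • P) (g • f) (SemilinearAut.baseAut g b) := by
  show g • f - algebraMap K F (SemilinearAut.baseAut g b) ∈
    (g • P).toValuationSubring.nonunits
  rw [← SemilinearAut.smul_algebraMap, ← smul_sub, SemilinearAut.smul_toValuationSubring,
    ValuationSubring.mem_nonunits_iff_or]
  have h' := (ValuationSubring.mem_nonunits_iff_or _).mp h
  rcases h' with h' | h'
  · left
    rw [h', smul_zero]
  · right
    intro hmem
    apply h'
    rw [← smul_inv''] at hmem
    exact (ValuationSubring.smul_mem_pointwise_smul_iff).mp hmem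

end Generic

end Fermat.Agent.S37.H277
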