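import Fermat.Agent.S37.H277.GalBasic

/-!
# S37 / [GAL] — values of integral functions are integral (helper277)

`exists_hasValue_of_integral` : let `A` be a valuation subring of `K`, `F ⊆ K((q))` a field,
`P` a place of `F/K` of degree one.  If `y ∈ A((q))` is integral over `A[u]` (`u ∈ A((q))`,
both lying in `F`) and `u` is regular at `P` with value `a ∈ A`, then `y` is regular at `P` with
value in `A`.
-/

set_option autoImplicit false

noncomputable section

namespace Fermat.Agent.S37.H277

open ModularCurve ValuationSubring AlgebraicCurve HahnSeries Fermat.Agent.S37.Core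
open scoped Pointwise

section Integral

variable {K : Type*} [Field K] (A : ValuationSubring K)
  {F : IntermediateField K (LaurentSeries K)}

/-- evaluation `A[X] → A((q))`, `X ↦ u` (generic version of `Core.evalSeries`) -/
def evalSer (u : LaurentSeries A) : Polynomial A →+* LaurentSeries A :=
  Polynomial.eval₂RingHom (HahnSeries.C : A →+* LaurentSeries A) u

theorem coeffMap_evalSeries_C (u : LaurentSeries A) (c : A) :
    coeffMap A.subtype (evalSer A u (Polynomial.C c)) =
      algebraMap K (LaurentSeries K) (c : K) := by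
  rw [evalSer, Polynomial.coe_eval₂RingHom, Polynomial.eval₂_C,
    algebraMap_laurentSeries_eq_single, HahnSeries.C_apply, coeffMap_single]
  rfl

theorem coeffMap_evalSeries_X (u : LaurentSeries A) :
    coeffMap A.subtype (evalSer A u Polynomial.X) = coeffMap A.subtype u := by
  rw [evalSer, Polynomial.coe_eval₂RingHom, Polynomial.eval₂_X]

/-- values of integral functions at a place of degree one are integral -/
theorem exists_hasValue_of_integral (P : Place K F) (hdeg : P.deg = 1)
    (u y : LaurentSeries A) (hu : coeffMap A.subtype u ∈ F) (hy : coeffMap A.subtype y ∈ F)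
    (p : Polynomial (Polynomial A)) (hp : p.Monic)
    (h0 : p.eval₂ (evalSer A u) y = 0)
    (a : A) (ha : HasValue P (⟨coeffMap A.subtype u, hu⟩ : F) (a : K)) :
    ∃ b : A, HasValue P (⟨coeffMap A.subtype y, hy⟩ : F) (b : K) := by
  classical
  have huO : (⟨coeffMap A.subtype u, hu⟩ : F) ∈ P.toValuationSubring := hasValue_mem ha
  -- the ring homomorphism `A[X] → O_P`, `X ↦ u`
  let ι : A →+* P.toValuationSubring := (algebraMap K P.toValuationSubring).comp A.subtype
  let ψ : Polynomial A →+* P.toValuationSubring :=
    Polynomial.eval₂RingHom ι ⟨⟨coeffMap A.subtype u, hu⟩, huO⟩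
  have hcomp : (F.val.toRingHom.comp (P.toValuationSubring.subtype.comp ψ)) =
      (coeffMap A.subtype).comp (evalSer A u) := by
    apply Polynomial.ringHom_ext
    · intro c
      rw [RingHom.comp_apply, RingHom.comp_apply, RingHom.comp_apply, coeffMap_evalSeries_C]
      show ((ψ (Polynomial.C c) : P.toValuationSubring) : F).1 = _
      rw [Polynomial.coe_eval₂RingHom, Polynomial.eval₂_C]
      rfl
    · rw [RingHom.comp_apply, RingHom.comp_apply, RingHom.comp_apply, coeffMap_evalSeries_X]
      show ((ψ Polynomial.X : P.toValuationSubring) : F).1 = _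
      rw [Polynomial.coe_eval₂RingHom, Polynomial.eval₂_X]
  have h1 : p.eval₂ (F.val.toRingHom.comp (P.toValuationSubring.subtype.comp ψ))
      (coeffMap A.subtype y) = 0 := by
    rw [hcomp]
    have h := congrArg (coeffMap A.subtype) h0
    rwa [Polynomial.hom_eval₂, map_zero] at h
  have h2 : p.eval₂ (P.toValuationSubring.subtype.comp ψ)
      (⟨coeffMap A.subtype y, hy⟩ : F) = 0 := by
    have h := Polynomial.hom_eval₂ p (P.toValuationSubring.subtype.comp ψ) F.val.toRingHom
      (⟨coeffMap A.subtype y, hy⟩ : F)
    have h' : F.val.toRingHom (⟨coeffMap A.subtype y, hy⟩ : F) = coeffMap A.subtype y := rfl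
    rw [h', h1] at h
    exact (map_eq_zero_iff _ F.val.toRingHom.injective).mp h
  have hyint : IsIntegral P.toValuationSubring (⟨coeffMap A.subtype y, hy⟩ : F) := by
    refine ⟨p.map ψ, hp.map ψ, ?_⟩
    rw [Polynomial.eval₂_map]
    exact h2
  obtain ⟨yO, hyO⟩ := IsIntegrallyClosed.isIntegral_iff.mp hyint
  have hyO' : (⟨coeffMap A.subtype y, hy⟩ : F) ∈ P.toValuationSubring := by
    rw [← hyO]; exact yO.2
  obtain ⟨b, hb⟩ := exists_hasValue hdeg hyO'
  -- `b` is integral over `A`
  have h3 : p.eval₂ ψ ⟨⟨coeffMap A.subtype y, hy⟩, hyO'⟩ = 0 := by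
    have h := Polynomial.hom_eval₂ p ψ P.toValuationSubring.subtype
      ⟨⟨coeffMap A.subtype y, hy⟩, hyO'⟩
    have h' : P.toValuationSubring.subtype ⟨⟨coeffMap A.subtype y, hy⟩, hyO'⟩ =
        (⟨coeffMap A.subtype y, hy⟩ : F) := rfl
    rw [h', h2] at h
    exact (map_eq_zero_iff _ P.toValuationSubring.subtype_injective).mp h
  obtain ⟨_, hρy⟩ := (hasValue_iff_residue P _ b).mp hb
  obtain ⟨_, hρu⟩ := (hasValue_iff_residue P _ (a : K)).mp ha
  have hρψ : (IsLocalRing.residue P.toValuationSubring).comp ψ =
      (algebraMap K P.ResidueField).comp (Polynomial.eval₂RingHom A.subtype (a : K)) := by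
    apply Polynomial.ringHom_ext
    · intro c
      rw [RingHom.comp_apply, RingHom.comp_apply, Polynomial.coe_eval₂RingHom,
        Polynomial.eval₂_C, Polynomial.coe_eval₂RingHom, Polynomial.eval₂_C,
        IsScalarTower.algebraMap_apply K P.toValuationSubring P.ResidueField,
        IsLocalRing.ResidueField.algebraMap_eq]
      rfl
    · rw [RingHom.comp_apply, RingHom.comp_apply, Polynomial.coe_eval₂RingHom,
        Polynomial.eval₂_X, Polynomial.coe_eval₂RingHom, Polynomial.eval₂_X]
      exact hρu
  have h4 : p.eval₂ (Polynomial.eval₂RingHom A.subtype (a : K)) b = 0 := by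
    have h := congrArg (IsLocalRing.residue P.toValuationSubring) h3
    rw [Polynomial.hom_eval₂, map_zero, hρψ, hρy, ← Polynomial.hom_eval₂] at h
    exact (map_eq_zero_iff _ (algebraMap K P.ResidueField).injective).mp h
  have he : Polynomial.eval₂RingHom A.subtype (a : K) =
      A.subtype.comp (Polynomial.evalRingHom a) := by
    apply Polynomial.ringHom_ext
    · intro c
      simp
    · simp
  have hbint : IsIntegral A b := by
    refine ⟨p.map (Polynomial.evalRingHom a), hp.map _, ?_⟩
    rw [Polynomial.eval₂_map]
    have : (algebraMap A K).comp (Polynomial.evalRingHom a) =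
        Polynomial.eval₂RingHom A.subtype (a : K) := he.symm
    rw [this]
    exact h4
  obtain ⟨b', hb'⟩ := IsIntegrallyClosed.isIntegral_iff.mp hbint
  refine ⟨b', ?_⟩
  have : ((b' : A) : K) = b := hb'
  rw [this]
  exact hb

end Integral

end Fermat.Agent.S37.H277
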