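import Fermat.Agent.S37.H277.GalTwist

/-!
# S37 / [GAL] — inertia invariance of a geometric place reduction (helper277)

`geoRed_inertia_of_deg` : for `G : GeoRed A N`, `τ` in the inertia group at `A` and every place
`P` of `ℚ̄(X₀(N))`:  `G.r (τ • P) = G.r P`, assuming that all places of `ℚ̄(X₀(N))` have degree
one (discharged in `Gal.lean`).

Proof: `P` lies in the finite chart (`j(P) ∈ A`) or in the chart at infinity (`j⁻¹(P) ∈ A`).
For `c` integral over `A[j]`, `c' := τ⁻¹c` is again integral over `A[j]` with the same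
reduction; its value `b` at `P` lies in `A`, the value of `c = τ c'` at `τ P` is `τ b ≡ b`,
so by value compatibility `c̄` has the same value at `r P` and at `r (τ P)`; the separation
property gives `r P = r (τ P)`.
-/

set_option autoImplicit false
set_option synthInstance.maxHeartbeats 400000

noncomputable section

namespace Fermat.Agent.S37.H277

open ModularCurve ValuationSubring AlgebraicCurve HahnSeries Fermat.Agent.S37.Core
open scoped Pointwise

variable {A : ValuationSubring (AlgebraicClosure ℚ)} {N : ℕ} [NeZero N]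

/-- the finite chart -/
theorem inertia_fin (G : GeoRed A N)
    (hdeg : ∀ P : Place (AlgebraicClosure ℚ) (modularFunctionFieldBar N), P.deg = 1)
    (τ : AlgebraicClosure ℚ ≃ₐ[ℚ] AlgebraicClosure ℚ) (hτ : τ ∈ A.inertiaSubgroupIn ℚ)
    (P : Place (AlgebraicClosure ℚ) (modularFunctionFieldBar N)) (a : A)
    (hPj : HasValue P (jElt A N).gen (a : AlgebraicClosure ℚ)) :
    G.r (arithmeticGalois (modularFunctionFieldFull N) τ • P) = G.r P := by
  have hPj' : HasValue (arithmeticGalois (modularFunctionFieldFull N) τ • P) (jElt A N).gen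
      ((inertiaRestrict τ hτ a : A) : AlgebraicClosure ℚ) := by
    have h := hasValue_smul (arithmeticGalois (modularFunctionFieldFull N) τ) hPj
    rw [smul_jElt_gen] at h
    exact h
  have hQ : HasValue (G.r P) (jElt A N).sp (IsLocalRing.residue A a) :=
    G.vc_fin (jElt A N) rfl (jElt A N) (jElt_isFin A N) P a a hPj hPj
  symm
  refine G.sep_fin (jElt A N) rfl (G.r P)
    (G.r (arithmeticGalois (modularFunctionFieldFull N) τ • P)) (IsLocalRing.residue A a) hQ ?_
  intro c hc b hb
  have hc' : (twist c τ⁻¹ (inv_mem hτ)).IsFin := twist_isFin hc τ⁻¹ (inv_mem hτ)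
  obtain ⟨p, hp, h0⟩ := hc'
  obtain ⟨b₁, hb₁⟩ := exists_hasValue_of_integral A P (hdeg P) (jqModC A)
    (twist c τ⁻¹ (inv_mem hτ)).y (jElt A N).mem (twist c τ⁻¹ (inv_mem hτ)).mem p hp h0 a hPj
  have h1 : HasValue (G.r P) (twist c τ⁻¹ (inv_mem hτ)).sp (IsLocalRing.residue A b₁) :=
    G.vc_fin (jElt A N) rfl (twist c τ⁻¹ (inv_mem hτ)) (twist_isFin hc τ⁻¹ (inv_mem hτ))
      P a b₁ hPj hb₁
  rw [twist_sp] at h1
  have hbb : b = IsLocalRing.residue A b₁ := hasValue_unique hb h1
  have h2 : HasValue (arithmeticGalois (modularFunctionFieldFull N) τ • P) c.gen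
      ((inertiaRestrict τ hτ b₁ : A) : AlgebraicClosure ℚ) := by
    have h := hasValue_smul (arithmeticGalois (modularFunctionFieldFull N) τ) hb₁
    have h' : arithmeticGalois (modularFunctionFieldFull N) τ •
        (twist c τ⁻¹ (inv_mem hτ)).gen = c.gen := smul_twist_inv_gen c τ hτ
    rw [← h']
    exact h
  have h3 := G.vc_fin (jElt A N) rfl c hc
    (arithmeticGalois (modularFunctionFieldFull N) τ • P) (inertiaRestrict τ hτ a)
    (inertiaRestrict τ hτ b₁) hPj' h2
  rw [residue_inertiaRestrict] at h3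
  rw [hbb]
  exact h3

/-- the chart at infinity -/
theorem inertia_inf (G : GeoRed A N)
    (hdeg : ∀ P : Place (AlgebraicClosure ℚ) (modularFunctionFieldBar N), P.deg = 1)
    (τ : AlgebraicClosure ℚ ≃ₐ[ℚ] AlgebraicClosure ℚ) (hτ : τ ∈ A.inertiaSubgroupIn ℚ)
    (P : Place (AlgebraicClosure ℚ) (modularFunctionFieldBar N)) (a : A)
    (hPu : HasValue P (uElt A N).gen (a : AlgebraicClosure ℚ)) :
    G.r (arithmeticGalois (modularFunctionFieldFull N) τ • P) = G.r P := by
  have hPu' : HasValue (arithmeticGalois (modularFunctionFieldFull N) τ • P) (uElt A N).gen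
      ((inertiaRestrict τ hτ a : A) : AlgebraicClosure ℚ) := by
    have h := hasValue_smul (arithmeticGalois (modularFunctionFieldFull N) τ) hPu
    rw [smul_uElt_gen] at h
    exact h
  have hQ : HasValue (G.r P) (uElt A N).sp (IsLocalRing.residue A a) :=
    G.vc_inf (uElt A N) (uElt_mul A N) (uElt A N) (uElt_isInf A N) P a a hPu hPu
  symm
  refine G.sep_inf (uElt A N) (uElt_mul A N) (G.r P)
    (G.r (arithmeticGalois (modularFunctionFieldFull N) τ • P)) (IsLocalRing.residue A a) hQ ?_
  intro c hc b hb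
  have hc' : (twist c τ⁻¹ (inv_mem hτ)).IsInf := twist_isInf hc τ⁻¹ (inv_mem hτ)
  obtain ⟨u, hu, p, hp, h0⟩ := hc'
  have huu : u = uSer A := eq_uSer A hu
  subst huu
  obtain ⟨b₁, hb₁⟩ := exists_hasValue_of_integral A P (hdeg P) (uSer A)
    (twist c τ⁻¹ (inv_mem hτ)).y (uElt A N).mem (twist c τ⁻¹ (inv_mem hτ)).mem p hp h0 a hPu
  have h1 : HasValue (G.r P) (twist c τ⁻¹ (inv_mem hτ)).sp (IsLocalRing.residue A b₁) :=
    G.vc_inf (uElt A N) (uElt_mul A N) (twist c τ⁻¹ (inv_mem hτ))
      (twist_isInf hc τ⁻¹ (inv_mem hτ)) P a b₁ hPu hb₁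
  rw [twist_sp] at h1
  have hbb : b = IsLocalRing.residue A b₁ := hasValue_unique hb h1
  have h2 : HasValue (arithmeticGalois (modularFunctionFieldFull N) τ • P) c.gen
      ((inertiaRestrict τ hτ b₁ : A) : AlgebraicClosure ℚ) := by
    have h := hasValue_smul (arithmeticGalois (modularFunctionFieldFull N) τ) hb₁
    have h' : arithmeticGalois (modularFunctionFieldFull N) τ •
        (twist c τ⁻¹ (inv_mem hτ)).gen = c.gen := smul_twist_inv_gen c τ hτ
    rw [← h']
    exact h
  have h3 := G.vc_inf (uElt A N) (uElt_mul A N) c hc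
    (arithmeticGalois (modularFunctionFieldFull N) τ • P) (inertiaRestrict τ hτ a)
    (inertiaRestrict τ hτ b₁) hPu' h2
  rw [residue_inertiaRestrict] at h3
  rw [hbb]
  exact h3

/-- every place lies in the finite chart or in the chart at infinity -/
theorem exists_chart
    (hdeg : ∀ P : Place (AlgebraicClosure ℚ) (modularFunctionFieldBar N), P.deg = 1)
    (P : Place (AlgebraicClosure ℚ) (modularFunctionFieldBar N)) :
    (∃ a : A, HasValue P (jElt A N).gen (a : AlgebraicClosure ℚ)) ∨
      (∃ a : A, HasValue P (uElt A N).gen (a : AlgebraicClosure ℚ)) := by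
  by_cases hj : (jElt A N).gen ∈ P.toValuationSubring
  · obtain ⟨a₀, ha₀⟩ := exists_hasValue (hdeg P) hj
    by_cases ha : a₀ ∈ A
    · exact Or.inl ⟨⟨a₀, ha⟩, ha₀⟩
    · have hne : a₀ ≠ 0 := by
        rintro rfl
        exact ha A.zero_mem
      have hinv : a₀⁻¹ ∈ A := (A.mem_or_inv_mem a₀).resolve_left ha
      right
      refine ⟨⟨a₀⁻¹, hinv⟩, ?_⟩
      rw [uElt_gen_eq_inv]
      exact hasValue_inv ha₀ hne
  · right
    refine ⟨0, ?_⟩
    rw [uElt_gen_eq_inv]
    exact hasValue_inv_zero_of_not_mem hj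

/-- **[GAL]**, assuming that all places have degree one. -/
theorem geoRed_inertia_of_deg (G : GeoRed A N)
    (hdeg : ∀ P : Place (AlgebraicClosure ℚ) (modularFunctionFieldBar N), P.deg = 1)
    (τ : AlgebraicClosure ℚ ≃ₐ[ℚ] AlgebraicClosure ℚ) (hτ : τ ∈ A.inertiaSubgroupIn ℚ)
    (P : Place (AlgebraicClosure ℚ) (modularFunctionFieldBar N)) :
    G.r (arithmeticGalois (modularFunctionFieldFull N) τ • P) = G.r P := by
  rcases exists_chart (A := A) hdeg P with ⟨a, ha⟩ | ⟨a, ha⟩
  · exact inertia_fin G hdeg τ hτ P a ha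
  · exact inertia_inf G hdeg τ hτ P a ha

end Fermat.Agent.S37.H277
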