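import Fermat.Agent.S37.H277.GalInt

/-!
# S37 / [GAL] — the inertia group acts on integral q-series (helper277)

* `inertia_mem`, `inertia_sub_mem` : elementwise description of the inertia group;
* `inertiaRestrict` : the ring endomorphism of `A` induced by an element of the inertia group;
* `IntElt.twist` : twist of an integral q-series by an element of the inertia group, with
  `twist_sp` (same reduction), `smul_gen_eq_twist`, `twist_isFin`, `twist_isInf`;
* `jElt`, `uElt` : the functions `j` and `j⁻¹` as integral q-series.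
-/

set_option autoImplicit false
set_option synthInstance.maxHeartbeats 400000

noncomputable section

namespace Fermat.Agent.S37.H277

open ModularCurve ValuationSubring AlgebraicCurve HahnSeries Fermat.Agent.S37.Core
open scoped Pointwise

section Inertia

variable {K L : Type*} [Field K] [Field L] [Algebra K L] {A : ValuationSubring L}

theorem decomposition_mem {τ : L ≃ₐ[K] L} (hτ : τ ∈ A.decompositionSubgroup K) {x : L}
    (hx : x ∈ A) : τ x ∈ A := by
  have h : τ • A = A := hτ
  have h2 := ValuationSubring.smul_mem_pointwise_smul τ x A hx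
  rw [h] at h2
  exact h2

theorem inertia_mem_decomposition {τ : L ≃ₐ[K] L} (hτ : τ ∈ A.inertiaSubgroupIn K) :
    τ ∈ A.decompositionSubgroup K := by
  obtain ⟨g, -, rfl⟩ := hτ
  exact g.2

theorem inertia_mem {τ : L ≃ₐ[K] L} (hτ : τ ∈ A.inertiaSubgroupIn K) {x : L}
    (hx : x ∈ A) : τ x ∈ A :=
  decomposition_mem (inertia_mem_decomposition hτ) hx

theorem inertia_sub_mem {τ : L ≃ₐ[K] L} (hτ : τ ∈ A.inertiaSubgroupIn K) {x : L}
    (hx : x ∈ A) : τ x - x ∈ A.nonunits := by
  obtain ⟨g, hg, rfl⟩ := hτ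
  have h1 : MulSemiringAction.toRingAut (A.decompositionSubgroup K)
      (IsLocalRing.ResidueField A) g = 1 := hg
  have h2 : g • (IsLocalRing.residue A ⟨x, hx⟩) = IsLocalRing.residue A ⟨x, hx⟩ := by
    have := congrArg (fun f => f (IsLocalRing.residue A ⟨x, hx⟩)) h1
    simpa using this
  rw [← IsLocalRing.ResidueField.residue_smul] at h2
  have h3 : (g • (⟨x, hx⟩ : A)) - ⟨x, hx⟩ ∈ IsLocalRing.maximalIdeal A := by
    rw [← Ideal.Quotient.eq]
    exact h2
  rw [ValuationSubring.mem_nonunits_iff]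
  rw [ValuationSubring.valuation_lt_one_iff] at h3
  exact h3

/-- the endomorphism of `A` induced by an element of the inertia group -/
def inertiaRestrict (τ : L ≃ₐ[K] L) (hτ : τ ∈ A.inertiaSubgroupIn K) : A →+* A :=
  RingHom.codRestrict (((τ : L ≃+* L) : L →+* L).comp A.subtype) A
    (fun x => inertia_mem hτ x.2)

@[simp]
theorem coe_inertiaRestrict (τ : L ≃ₐ[K] L) (hτ : τ ∈ A.inertiaSubgroupIn K) (x : A) :
    ((inertiaRestrict τ hτ x : A) : L) = τ x := rfl

theorem subtype_comp_inertiaRestrict (τ : L ≃ₐ[K] L) (hτ : τ ∈ A.inertiaSubgroupIn K) :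
    A.subtype.comp (inertiaRestrict τ hτ) = ((τ : L →+* L)).comp A.subtype := rfl

theorem residue_inertiaRestrict (τ : L ≃ₐ[K] L) (hτ : τ ∈ A.inertiaSubgroupIn K) (x : A) :
    IsLocalRing.residue A (inertiaRestrict τ hτ x) = IsLocalRing.residue A x := by
  rw [← sub_eq_zero, ← map_sub, IsLocalRing.residue_eq_zero_iff,
    ← ValuationSubring.coe_mem_nonunits_iff]
  exact inertia_sub_mem hτ x.2

theorem residue_comp_inertiaRestrict (τ : L ≃ₐ[K] L) (hτ : τ ∈ A.inertiaSubgroupIn K) :
    (IsLocalRing.residue A).comp (inertiaRestrict τ hτ) = IsLocalRing.residue A :=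
  RingHom.ext fun x => residue_inertiaRestrict τ hτ x

end Inertia

section Twist

variable {A : ValuationSubring (AlgebraicClosure ℚ)} {N : ℕ}

/-- twist of an integral q-series by an element of the inertia group -/
def twist (c : IntElt A N) (τ : AlgebraicClosure ℚ ≃ₐ[ℚ] AlgebraicClosure ℚ)
    (hτ : τ ∈ A.inertiaSubgroupIn ℚ) : IntElt A N where
  y := coeffMap (inertiaRestrict τ hτ) c.y
  mem := by
    rw [coeffMap_coeffMap, subtype_comp_inertiaRestrict, ← coeffMap_coeffMap]
    exact coeffMap_mem_laurentBaseChange τ c.mem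
  memk := by
    rw [coeffMap_coeffMap, residue_comp_inertiaRestrict]
    exact c.memk

theorem twist_y (c : IntElt A N) (τ : AlgebraicClosure ℚ ≃ₐ[ℚ] AlgebraicClosure ℚ)
    (hτ : τ ∈ A.inertiaSubgroupIn ℚ) :
    (twist c τ hτ).y = coeffMap (inertiaRestrict τ hτ) c.y := rfl

theorem twist_sp (c : IntElt A N) (τ : AlgebraicClosure ℚ ≃ₐ[ℚ] AlgebraicClosure ℚ)
    (hτ : τ ∈ A.inertiaSubgroupIn ℚ) : (twist c τ hτ).sp = c.sp := by
  apply Subtype.ext
  show coeffMap (IsLocalRing.residue A) (coeffMap (inertiaRestrict τ hτ) c.y) =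
    coeffMap (IsLocalRing.residue A) c.y
  rw [coeffMap_coeffMap, residue_comp_inertiaRestrict]

theorem smul_gen_eq_twist (c : IntElt A N) (τ : AlgebraicClosure ℚ ≃ₐ[ℚ] AlgebraicClosure ℚ)
    (hτ : τ ∈ A.inertiaSubgroupIn ℚ) :
    arithmeticGalois (modularFunctionFieldFull N) τ • c.gen = (twist c τ hτ).gen := by
  apply Subtype.ext
  show coeffMap (τ : AlgebraicClosure ℚ →+* AlgebraicClosure ℚ) (coeffMap A.subtype c.y) =
    coeffMap A.subtype (coeffMap (inertiaRestrict τ hτ) c.y)
  rw [coeffMap_coeffMap, coeffMap_coeffMap, subtype_comp_inertiaRestrict]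

theorem smul_twist_inv_gen (c : IntElt A N) (τ : AlgebraicClosure ℚ ≃ₐ[ℚ] AlgebraicClosure ℚ)
    (hτ : τ ∈ A.inertiaSubgroupIn ℚ) :
    arithmeticGalois (modularFunctionFieldFull N) τ • (twist c τ⁻¹ (inv_mem hτ)).gen = c.gen := by
  rw [← smul_gen_eq_twist, smul_smul, ← map_mul, mul_inv_cancel, map_one, one_smul]

/-- `coeffMap r` commutes with evaluation of polynomials -/
theorem coeffMap_comp_evalSeries (r : A →+* A) (u : LaurentSeries A) :
    (coeffMap r).comp (evalSeries A u) =
      (evalSeries A (coeffMap r u)).comp (Polynomial.mapRingHom r) := by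
  apply Polynomial.ringHom_ext
  · intro a
    rw [RingHom.comp_apply, RingHom.comp_apply, Polynomial.coe_mapRingHom, Polynomial.map_C,
      evalSeries, evalSeries, Polynomial.coe_eval₂RingHom, Polynomial.eval₂_C,
      Polynomial.coe_eval₂RingHom, Polynomial.eval₂_C, HahnSeries.C_apply, HahnSeries.C_apply,
      coeffMap_single]
  · rw [RingHom.comp_apply, RingHom.comp_apply, Polynomial.coe_mapRingHom, Polynomial.map_X,
      evalSeries, evalSeries, Polynomial.coe_eval₂RingHom, Polynomial.eval₂_X,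
      Polynomial.coe_eval₂RingHom, Polynomial.eval₂_X]

theorem eval₂_twist (r : A →+* A) (u y : LaurentSeries A) (p : Polynomial (Polynomial A))
    (h0 : p.eval₂ (evalSeries A u) y = 0) :
    (p.map (Polynomial.mapRingHom r)).eval₂ (evalSeries A (coeffMap r u)) (coeffMap r y) = 0 := by
  have h := congrArg (coeffMap r) h0
  rw [Polynomial.hom_eval₂, map_zero, coeffMap_comp_evalSeries] at h
  rw [Polynomial.eval₂_map]
  exact h

theorem twist_isFin {c : IntElt A N} (hc : c.IsFin)
    (τ : AlgebraicClosure ℚ ≃ₐ[ℚ] AlgebraicClosure ℚ) (hτ : τ ∈ A.inertiaSubgroupIn ℚ) :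
    (twist c τ hτ).IsFin := by
  obtain ⟨p, hp, h0⟩ := hc
  refine ⟨p.map (Polynomial.mapRingHom (inertiaRestrict τ hτ)), hp.map _, ?_⟩
  have h := eval₂_twist (inertiaRestrict τ hτ) (jqModC A) c.y p h0
  rw [coeffMap_jqModC] at h
  exact h

theorem twist_isInf {c : IntElt A N} (hc : c.IsInf)
    (τ : AlgebraicClosure ℚ ≃ₐ[ℚ] AlgebraicClosure ℚ) (hτ : τ ∈ A.inertiaSubgroupIn ℚ) :
    (twist c τ hτ).IsInf := by
  obtain ⟨u, hu, p, hp, h0⟩ := hc
  refine ⟨coeffMap (inertiaRestrict τ hτ) u, ?_,
    p.map (Polynomial.mapRingHom (inertiaRestrict τ hτ)), hp.map _, ?_⟩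
  · have h := congrArg (coeffMap (inertiaRestrict τ hτ)) hu
    rw [map_mul, coeffMap_jqModC, map_one] at h
    exact h
  · exact eval₂_twist (inertiaRestrict τ hτ) u c.y p h0

end Twist

section JElt

variable (A : ValuationSubring (AlgebraicClosure ℚ)) (N : ℕ) [NeZero N]

theorem jqModC_mem_bar : jqModC (AlgebraicClosure ℚ) ∈ modularFunctionFieldBar N := by
  have h : jq ∈ modularFunctionFieldFull N := by
    have h := jqd_mem_full N (one_dvd N)
    rwa [qExpand_one_apply] at h
  have h2 := coeffEmb_mem_laurentBaseChange (AlgebraicClosure ℚ) h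
  have h3 : coeffEmb (AlgebraicClosure ℚ) jq = jqModC (AlgebraicClosure ℚ) := by
    rw [← jqModC_rat]
    exact coeffMap_jqModC (algebraMap ℚ (AlgebraicClosure ℚ))
  rwa [h3] at h2

/-- the function `j` as an integral q-series -/
def jElt : IntElt A N where
  y := jqModC A
  mem := by
    rw [coeffMap_jqModC]
    exact jqModC_mem_bar N
  memk := by
    rw [coeffMap_jqModC]
    exact jqModC_mem_full _ N

theorem jElt_y : (jElt A N).y = jqModC A := rfl

theorem jElt_isFin : (jElt A N).IsFin := by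
  refine ⟨Polynomial.X - Polynomial.C Polynomial.X, Polynomial.monic_X_sub_C _, ?_⟩
  rw [Polynomial.eval₂_sub, Polynomial.eval₂_X, Polynomial.eval₂_C, evalSeries,
    Polynomial.coe_eval₂RingHom, Polynomial.eval₂_X]
  exact sub_self _

/-- an inverse of `j` in `A((q))` -/
theorem exists_inv_jqModC : ∃ u : LaurentSeries A, u * jqModC A = 1 := by
  have hw : IsUnit (jNum.map (Int.castRingHom A)) := by
    rw [PowerSeries.isUnit_iff_constantCoeff]
    have : PowerSeries.constantCoeff (jNum.map (Int.castRingHom A)) = 1 := by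
      rw [← PowerSeries.coeff_zero_eq_constantCoeff_apply, PowerSeries.coeff_map,
        PowerSeries.coeff_zero_eq_constantCoeff_apply, constantCoeff_jNum, map_one]
    rw [this]
    exact isUnit_one
  obtain ⟨w, hw⟩ := hw
  refine ⟨HahnSeries.single (1 : ℤ) 1 * HahnSeries.ofPowerSeries ℤ A (↑w⁻¹ : PowerSeries A), ?_⟩
  rw [jqModC, ← hw]
  have h1 : (HahnSeries.single (1 : ℤ) (1 : A)) * HahnSeries.single (-1 : ℤ) 1 = 1 := by
    rw [HahnSeries.single_mul_single]
    simp
  calc HahnSeries.single (1 : ℤ) 1 * HahnSeries.ofPowerSeries ℤ A (↑w⁻¹ : PowerSeries A) *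
        (HahnSeries.single (-1 : ℤ) 1 * HahnSeries.ofPowerSeries ℤ A (w : PowerSeries A))
      = (HahnSeries.single (1 : ℤ) 1 * HahnSeries.single (-1 : ℤ) 1) *
        (HahnSeries.ofPowerSeries ℤ A (↑w⁻¹ : PowerSeries A) *
          HahnSeries.ofPowerSeries ℤ A (w : PowerSeries A)) := by ring
    _ = 1 := by
      rw [h1, ← map_mul, Units.inv_mul, map_one, mul_one]

/-- the function `j⁻¹` as a q-series over `A` -/
def uSer : LaurentSeries A := (exists_inv_jqModC A).choose

theorem uSer_mul : uSer A * jqModC A = 1 := (exists_inv_jqModC A).choose_spec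

theorem eq_uSer {u : LaurentSeries A} (hu : u * jqModC A = 1) : u = uSer A := by
  calc u = u * (uSer A * jqModC A) := by rw [uSer_mul, mul_one]
    _ = (u * jqModC A) * uSer A := by ring
    _ = uSer A := by rw [hu, one_mul]

/-- the function `j⁻¹` as an integral q-series -/
def uElt : IntElt A N where
  y := uSer A
  mem := by
    have h := congrArg (coeffMap A.subtype) (uSer_mul A)
    rw [map_mul, coeffMap_jqModC, map_one] at h
    have hj := jqModC_mem_bar N
    have h2 : coeffMap A.subtype (uSer A) = (jqModC (AlgebraicClosure ℚ))⁻¹ :=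
      eq_inv_of_mul_eq_one_left h
    rw [h2]
    exact inv_mem hj
  memk := by
    have h := congrArg (coeffMap (IsLocalRing.residue A)) (uSer_mul A)
    rw [map_mul, coeffMap_jqModC, map_one] at h
    have hj := jqModC_mem_full (IsLocalRing.ResidueField A) N
    have h2 : coeffMap (IsLocalRing.residue A) (uSer A) =
        (jqModC (IsLocalRing.ResidueField A))⁻¹ :=
      eq_inv_of_mul_eq_one_left h
    rw [h2]
    exact inv_mem hj

theorem uElt_y : (uElt A N).y = uSer A := rfl

theorem uElt_mul : (uElt A N).y * jqModC A = 1 := uSer_mul A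

theorem uElt_isInf : (uElt A N).IsInf := by
  refine ⟨uSer A, uSer_mul A, Polynomial.X - Polynomial.C Polynomial.X,
    Polynomial.monic_X_sub_C _, ?_⟩
  rw [Polynomial.eval₂_sub, Polynomial.eval₂_X, Polynomial.eval₂_C, evalSeries,
    Polynomial.coe_eval₂RingHom, Polynomial.eval₂_X]
  exact sub_self _

theorem uElt_gen_mul : (uElt A N).gen * (jElt A N).gen = 1 := by
  apply Subtype.ext
  show coeffMap A.subtype (uSer A) * coeffMap A.subtype (jqModC A) = 1
  rw [← map_mul, uSer_mul, map_one]

theorem uElt_gen_eq_inv : (uElt A N).gen = ((jElt A N).gen)⁻¹ :=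
  eq_inv_of_mul_eq_one_left (uElt_gen_mul A N)

variable {A N}

theorem smul_jElt_gen (τ : AlgebraicClosure ℚ ≃ₐ[ℚ] AlgebraicClosure ℚ) :
    arithmeticGalois (modularFunctionFieldFull N) τ • (jElt A N).gen = (jElt A N).gen := by
  apply Subtype.ext
  show coeffMap (τ : AlgebraicClosure ℚ →+* AlgebraicClosure ℚ)
    (coeffMap A.subtype (jqModC A)) = coeffMap A.subtype (jqModC A)
  rw [coeffMap_jqModC, coeffMap_jqModC]

theorem smul_uElt_gen (τ : AlgebraicClosure ℚ ≃ₐ[ℚ] AlgebraicClosure ℚ) :
    arithmeticGalois (modularFunctionFieldFull N) τ • (uElt A N).gen = (uElt A N).gen := by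
  rw [uElt_gen_eq_inv, smul_inv'', smul_jElt_gen]

end JElt

end Fermat.Agent.S37.H277
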